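import Fermat.Agent.GalW.Basic

/-!
# Big image for residual representations of semistable curves: group theory
-/

set_option autoImplicit false

namespace Fermat.Agent.GalW

open Fermat.Agent.FlatGS Fermat.Agent.MazurMult FermatAgent.ECVal IsLocalRing Matrix
open Fermat.Agent.S53norm (M2)
open Fermat.Agent.FlatP Fermat.Agent.TW
open scoped Pointwise

variable {k : Type} [Field k] {p : ℕ} {r : GQ →* M2 k}

/-- a subgroup containing the kernel of a representation of finite level is open. -/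
lemma isOpen_of_ker_le (hr : IsFiniteLevel r) {H : Subgroup GQ} (h : ∀ σ, r σ = 1 → σ ∈ H) :
    IsOpen (H : Set GQ) := by
  obtain ⟨L, hL, hL1⟩ := hr
  refine Subgroup.isOpen_mono (H₁ := L.fixingSubgroup) (fun σ hσ => ?_) ?_
  · refine h σ (hL1 σ fun x hx => ?_)
    exact hσ ⟨x, hx⟩
  · have := hL
    exact L.fixingSubgroup_isOpen

/-- **Minkowski**: an open normal subgroup containing the inertia groups outside `p` and one
inertia group at `p` is everything. -/
lemma eq_top_of_inertia (hp : p.Prime) {H : Subgroup GQ} [H.Normal] (hH : IsOpen (H : Set GQ))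
    (h1 : ∀ ℓ : ℕ, ℓ.Prime → ℓ ≠ p → ∀ A : ValuationSubring Om, A.LiesOverPrime ℓ →
      A.inertiaSubgroupIn ℚ ≤ H) {A : ValuationSubring Om} (hA : A.LiesOverPrime p)
    (h2 : A.inertiaSubgroupIn ℚ ≤ H) : H = ⊤ := by
  refine Minkowski.eq_top_of_inertia_le H hH fun ℓ hℓ B hB => ?_
  by_cases hℓp : ℓ = p
  · subst hℓp
    obtain ⟨g, hg⟩ := Frob.exists_smul_eq hℓ hA hB
    subst hg
    intro σ hσ
    have h3 := h2 (Fermat.Agent.CFT.SKummer.conj_mem_inertia hσ)
    have h4 := (inferInstance : H.Normal).conj_mem _ h3 g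
    have h5 : g * (g⁻¹ * σ * g) * g⁻¹ = σ := by group
    rwa [h5] at h4
  · exact h1 ℓ hℓ hℓp B hB

/-- extension of scalars. -/
noncomputable def ext (K : Type) [Field K] [Algebra k K] (r : GQ →* M2 k) : GQ →* M2 K :=
  ((algebraMap k K).mapMatrix : M2 k →+* M2 K).toMonoidHom.comp r

lemma ext_apply {K : Type} [Field K] [Algebra k K] (σ : GQ) :
    ext K r σ = (r σ).map (algebraMap k K) := rfl

lemma ext_injective {K : Type} [Field K] [Algebra k K] {X Y : M2 k}
    (h : X.map (algebraMap k K) = Y.map (algebraMap k K)) : X = Y :=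
  Matrix.map_injective (algebraMap k K).injective h

lemma ext_unip {K : Type} [Field K] [Algebra k K] {X : M2 k} (h : (X - 1) * (X - 1) = 0) :
    (X.map (algebraMap k K) - 1) * (X.map (algebraMap k K) - 1) = 0 := by
  have := congrArg (algebraMap k K).mapMatrix h
  rwa [map_mul, map_sub, map_one, map_zero] at this

/-- The structure of a representation with a line stable under a subgroup of index two. -/
structure Imprim (K : Type) [Field K] [Algebra k K] (r : GQ →* M2 k) (G : Subgroup GQ)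
    (v w : Fin 2 → K) : Prop where
  li : LinearIndependent K ![v, w]
  diag : ∀ σ ∈ G, ∃ a b : K, ext K r σ *ᵥ v = a • v ∧ ext K r σ *ᵥ w = b • w
  swap : ∀ σ, σ ∉ G → (r σ).trace = 0
  ker : ∀ σ, r σ = 1 → σ ∈ G

lemma li_of_not_stable {K : Type} [Field K] {v w : Fin 2 → K} (hv : v ≠ 0)
    (h : ¬ ∃ a : K, w = a • v) : LinearIndependent K ![v, w] := by
  rw [LinearIndependent.pair_iff' hv]
  intro a ha
  exact h ⟨a, ha.symm⟩

theorem imprim_of {K : Type} [Field K] [Algebra k K] {G : Subgroup GQ} (hG : G.index = 2)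
    {v : Fin 2 → K} (hv : v ≠ 0)
    (hirr : ¬ ∀ σ, ∃ a : K, ext K r σ *ᵥ v = a • v)
    (hstab : ∀ σ ∈ G, ∃ a : K, ext K r σ *ᵥ v = a • v) : ∃ w, Imprim K r G v w := by
  have hmul := fun {a b : GQ} => Subgroup.mul_mem_iff_of_index_two hG (a := a) (b := b)
  have hn : G.Normal := Subgroup.normal_of_index_eq_two hG
  -- an element outside G does not preserve the line
  have hout : ∀ σ, σ ∉ G → ¬ ∃ a : K, ext K r σ *ᵥ v = a • v := by
    rintro σ hσ ⟨a, ha⟩
    apply hirr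
    intro τ
    by_cases hτ : τ ∈ G
    · exact hstab τ hτ
    · have h1 : τ * σ⁻¹ ∈ G := hmul.mpr ⟨fun h => absurd h hτ, fun h => absurd (inv_mem_iff.mp h) hσ⟩
      have h1' : σ⁻¹ * τ ∈ G := hmul.mpr ⟨fun h => absurd (inv_mem_iff.mp h) hσ, fun h => absurd h hτ⟩
      obtain ⟨b, hb⟩ := hstab _ h1'
      refine ⟨b * a, ?_⟩
      have h2 : τ = σ * (σ⁻¹ * τ) := by group
      rw [h2, map_mul, ← Matrix.mulVec_mulVec, hb, Matrix.mulVec_smul, ha, smul_smul]
  obtain ⟨σ₀, hσ₀⟩ : ∃ σ, σ ∉ G := by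
    by_contra hcon
    push Not at hcon
    have : G = ⊤ := (Subgroup.eq_top_iff' G).mpr hcon
    rw [this, Subgroup.index_top] at hG
    omega
  have hli := li_of_not_stable hv (hout σ₀ hσ₀)
  refine ⟨ext K r σ₀ *ᵥ v, hli, fun τ hτ => ?_, fun σ hσ => ?_, fun σ hσ => ?_⟩
  · obtain ⟨a, ha⟩ := hstab τ hτ
    obtain ⟨b, hb⟩ := hstab (σ₀⁻¹ * τ * σ₀) (by
      have := hn.conj_mem τ hτ σ₀⁻¹
      rwa [inv_inv] at this)
    refine ⟨a, b, ha, ?_⟩
    have h2 : τ * σ₀ = σ₀ * (σ₀⁻¹ * τ * σ₀) := by group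
    rw [Matrix.mulVec_mulVec, ← map_mul, h2, map_mul, ← Matrix.mulVec_mulVec, hb,
      Matrix.mulVec_smul]
  · have h1 : σ₀⁻¹ * σ ∈ G :=
      hmul.mpr ⟨fun h => absurd (inv_mem_iff.mp h) hσ₀, fun h => absurd h hσ⟩
    have h2 : σ * σ₀ ∈ G := hmul.mpr ⟨fun h => absurd h hσ, fun h => absurd h hσ₀⟩
    obtain ⟨a, ha⟩ := hstab _ h1
    obtain ⟨b, hb⟩ := hstab _ h2
    have h3 : ext K r σ *ᵥ v = a • (ext K r σ₀ *ᵥ v) := by
      have h4 : σ = σ₀ * (σ₀⁻¹ * σ) := by group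
      rw [h4, map_mul, ← Matrix.mulVec_mulVec, ha, Matrix.mulVec_smul]
    have h5 : ext K r σ *ᵥ (ext K r σ₀ *ᵥ v) = b • v := by
      rw [Matrix.mulVec_mulVec, ← map_mul, hb]
    have h6 := trace_eq_zero_of_swap hli h3 h5
    rw [ext_apply] at h6
    have h7 : ((r σ).map (algebraMap k K)).trace = algebraMap k K (r σ).trace := by
      simp [Matrix.trace_fin_two]
    rw [h7] at h6
    exact (map_eq_zero _).mp h6
  · by_contra hcon
    apply hout σ hcon
    exact ⟨1, by rw [ext_apply, hσ]; simp⟩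

section

variable {K : Type} [Field K] [Algebra k K] {G : Subgroup GQ} {v w : Fin 2 → K}

lemma Imprim.eq_one (h : Imprim K r G v w) {σ : GQ} (hσ : σ ∈ G)
    (hu : (r σ - 1) * (r σ - 1) = 0) : r σ = 1 := by
  obtain ⟨a, b, ha, hb⟩ := h.diag σ hσ
  have h1 := eq_one_of_unip h.li ha hb (ext_unip hu)
  refine ext_injective (K := K) ?_
  rw [← ext_apply, h1]
  simp

/-- unipotent elements act trivially. -/
lemma Imprim.eq_one_of_unip (h : Imprim K r G v w) (h2 : (2 : k) ≠ 0) (hG : G.index = 2) {σ : GQ}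
    (hu : (r σ - 1) * (r σ - 1) = 0) : r σ = 1 := by
  have h3 : σ * σ ∈ G := Subgroup.mul_self_mem_of_index_two hG σ
  have h4 : r (σ * σ) = 1 := h.eq_one h3 (by rw [map_mul]; exact sq_unip hu)
  rw [map_mul] at h4
  exact eq_one_of_sq h2 hu h4

lemma Imprim.exists_inertia (h : Imprim K r G v w) (hp : p.Prime) (h2 : (2 : k) ≠ 0)
    (hG : G.index = 2)
    (hlev : IsFiniteLevel r) (hun : UnipAway p r) {A : ValuationSubring Om}
    (hA : A.LiesOverPrime p) : ∃ σ ∈ A.inertiaSubgroupIn ℚ, σ ∉ G := by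
  by_contra hcon
  push Not at hcon
  have hn : G.Normal := Subgroup.normal_of_index_eq_two hG
  have := eq_top_of_inertia hp (isOpen_of_ker_le hlev h.ker)
    (fun ℓ hℓ hℓp B hB σ hσ => h.ker σ (h.eq_one_of_unip h2 hG (hun ℓ hℓ hℓp B hB σ hσ))) hA hcon
  rw [this, Subgroup.index_top] at hG
  omega

end

lemma two_ne_zero_of [CharP k p] (hp : p.Prime) (hp2 : p ≠ 2) : (2 : k) ≠ 0 := by
  intro h
  have h1 : ((2 : ℕ) : k) = 0 := by exact_mod_cast h
  rw [CharP.cast_eq_zero_iff k p] at h1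
  exact hp2 ((Nat.prime_dvd_prime_iff_eq hp Nat.prime_two).mp h1)

lemma trace_of_eigen {X : M2 k} {v w : Fin 2 → k} (hli : LinearIndependent k ![v, w]) {a b : k}
    (hv : X *ᵥ v = a • v) (hw : X *ᵥ w = b • w) : X.trace = a + b := by
  obtain ⟨U, hU⟩ := exists_unit_basis hli
  have h1 := hU X a 0 0 b (by rw [zero_smul, add_zero, hv]) (by rw [zero_smul, zero_add, hw])
  have h2 : X.trace = ((U : M2 k) * X * (U⁻¹ : (M2 k)ˣ)).trace := by
    rw [Matrix.trace_mul_comm, ← mul_assoc, Units.inv_mul, one_mul]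
  rw [h2, h1]
  simp [Matrix.trace_fin_two]

/-- the supersingular case is never imprimitive. -/
theorem not_imprim_of_ss [hp : Fact p.Prime] [CharP k p] (hp2 : p ≠ 2) {K : Type} [Field K]
    [Algebra k K] {G : Subgroup GQ} (hG : G.index = 2) {v w : Fin 2 → K} (h : Imprim K r G v w)
    (hlev : IsFiniteLevel r) (hun : UnipAway p r) {A : ValuationSubring Om}
    (hA : A.LiesOverPrime p) (hss : SSAt p A r) : False := by
  have h2 := two_ne_zero_of (k := k) hp.out hp2
  obtain ⟨v₁, v₂, ψ, hli, hψ, g, hg, hord⟩ := hss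
  obtain ⟨σ, hσ, hσG⟩ := h.exists_inertia hp.out h2 hG hlev hun hA
  have hv0 : v₁ ≠ 0 := hli.ne_zero 0
  have htr : ∀ g ∈ A.inertiaSubgroupIn ℚ, g ∉ G → ψ g ^ p = - ψ g := by
    intro g hg hgG
    obtain ⟨h3, h4⟩ := hψ g hg
    have h5 := trace_of_eigen hli h3 h4
    rw [h.swap g hgG] at h5
    exact (neg_eq_of_add_eq_zero_right h5.symm).symm
  have hmul : ∀ g ∈ A.inertiaSubgroupIn ℚ, ∀ g' ∈ A.inertiaSubgroupIn ℚ,
      ψ (g * g') = ψ g * ψ g' := by
    intro g hg g' hg'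
    have h3 := (hψ (g * g') (mul_mem hg hg')).1
    rw [map_mul, ← Matrix.mulVec_mulVec, (hψ g' hg').1, Matrix.mulVec_smul, (hψ g hg).1,
      smul_smul] at h3
    have h4 := smul_left_injective k hv0 h3
    rw [← h4, mul_comm]
  have hψ0 : ∀ g ∈ A.inertiaSubgroupIn ℚ, ψ g ≠ 0 := by
    intro g hg h0
    have h3 := (hψ g hg).1
    rw [h0, zero_smul] at h3
    have h4 : r g⁻¹ *ᵥ (r g *ᵥ v₁) = v₁ := by
      rw [Matrix.mulVec_mulVec, ← map_mul, inv_mul_cancel, map_one, Matrix.one_mulVec]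
    rw [h3, Matrix.mulVec_zero] at h4
    exact hv0 h4.symm
  have key : (ψ g ^ p) ^ 2 = ψ g ^ 2 := by
    by_cases hgG : g ∈ G
    · have h3 : σ * g ∉ G := fun hc =>
        hσG ((Subgroup.mul_mem_iff_of_index_two hG).mp hc |>.mpr hgG)
      have h4 := htr _ (mul_mem hσ hg) h3
      rw [hmul σ hσ g hg, mul_pow, htr σ hσ hσG] at h4
      have h5 : ψ g ^ p = ψ g := by
        have h6 : ψ σ * ψ g ^ p = ψ σ * ψ g := by linear_combination -h4
        exact mul_left_cancel₀ (hψ0 σ hσ) h6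
      rw [h5]
    · rw [htr g hg hgG, neg_sq]
  have hpp := hp.out.two_le
  have h5 : ψ g ^ (2 * (p - 1)) = 1 := by
    have h6 : ψ g ^ 2 * ψ g ^ (2 * (p - 1)) = ψ g ^ 2 * 1 := by
      rw [← pow_add, mul_one, ← key, ← pow_mul]
      congr 1
      omega
    exact mul_left_cancel₀ (pow_ne_zero _ (hψ0 g hg)) h6
  have h6 := orderOf_dvd_of_pow_eq_one h5
  rw [hord] at h6
  have h7 := Nat.le_of_dvd (by omega) h6
  have h8 : p ^ 2 - 1 = (p + 1) * (p - 1) := by
    have := Nat.sq_sub_sq p 1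
    simpa using this
  rw [h8] at h7
  have h9 : p + 1 ≤ 2 := Nat.le_of_mul_le_mul_right h7 (by omega)
  omega

/-- inertia at `p ≥ 5` contains an element whose determinant is not `± 1`. -/
lemma exists_det [hp : Fact p.Prime] [CharP k p] (hp5 : 5 ≤ p) (hcyc : CycDet p r)
    {A : ValuationSubring Om} (hA : A.LiesOverPrime p) :
    ∃ g ∈ A.inertiaSubgroupIn ℚ, (r g).det ^ 2 ≠ 1 := by
  have h3 := two_le_sq_sub_one hp.out
  have hNZ : NeZero (p ^ 2 - 1) := ⟨by omega⟩
  have hNZ' : NeZero p := ⟨hp.out.ne_zero⟩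
  obtain ⟨ζ, hζ⟩ := HasEnoughRootsOfUnity.exists_primitiveRoot Om p
  obtain ⟨ξ, hξ⟩ := HasEnoughRootsOfUnity.exists_primitiveRoot Om (p ^ 2 - 1)
  obtain ⟨π, hπ⟩ : ∃ π : Om, π ^ (p ^ 2 - 1) = (p : Om) :=
    IsAlgClosed.exists_pow_nat_eq _ (by omega)
  obtain ⟨g, hg, hgπ⟩ := exists_inertia_smul hp.out hA hπ hξ.pow_eq_one
  have hπ0 := (val_pi hp.out hA hπ).1
  have hdiv : g π / π = ξ := by rw [hgπ, mul_div_cancel_right₀ _ hπ0]
  have hξA : ξ ∈ A := pow_mem_of_pow_eq_one (by omega) hξ.pow_eq_one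
  obtain ⟨a, ha⟩ := exists_root_exponent p g
  have h4 := cyc_eq hp.out hA hπ hζ hg (ha ζ hζ.pow_eq_one) (by rw [hdiv]; exact hξA)
  refine ⟨g, hg, fun h5 => ?_⟩
  rw [hcyc g a ha] at h5
  have hch := charP_residueField_count hp.out hA
  have h6 : ((a ^ 2 : ℕ) : k) = ((1 : ℕ) : k) := by push_cast; exact h5
  rw [CharP.natCast_eq_natCast k p] at h6
  have h7 : ((a ^ 2 : ℕ) : IsLocalRing.ResidueField A) = ((1 : ℕ) : IsLocalRing.ResidueField A) := by
    rw [CharP.natCast_eq_natCast (IsLocalRing.ResidueField A) p]; exact h6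
  push_cast at h7
  rw [h4, ← map_pow, ← map_pow] at h7
  have h8 := eq_one_of_sub_one_mem hp.out hA (n := p ^ 2 - 1) (not_dvd_sq_sub_one hp.out)
      (z := (g π / π) ^ ((p + 1) * 2)) (by
        rw [hdiv, ← pow_mul, mul_comm, pow_mul, hξ.pow_eq_one, one_pow])
      (A.toSubring.pow_mem (by rw [hdiv]; exact hξA) _) (by
        rw [← h7]
        congr 1
        apply Subtype.ext
        push_cast
        rw [← pow_mul])
  rw [hdiv] at h8
  have h9 : p ^ 2 - 1 = (p + 1) * (p - 1) := by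
    have := Nat.sq_sub_sq p 1
    simpa using this
  refine hξ.pow_ne_one_of_pos_of_lt (by omega) ?_ h8
  rw [h9]
  exact Nat.mul_lt_mul_of_pos_left (by omega) (by omega)

/-- the ordinary case is never imprimitive for `p ≥ 5`. -/
theorem not_imprim_of_ord [hp : Fact p.Prime] [CharP k p] (hp5 : 5 ≤ p) (hcyc : CycDet p r)
    {K : Type} [Field K]
    [Algebra k K] {G : Subgroup GQ} (hG : G.index = 2) {v w : Fin 2 → K} (h : Imprim K r G v w)
    (hlev : IsFiniteLevel r) (hun : UnipAway p r) {A : ValuationSubring Om}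
    (hA : A.LiesOverPrime p) (hord : OrdAt A r) : False := by
  have h2 := two_ne_zero_of (k := k) hp.out (by omega)
  obtain ⟨v₀, -, hv⟩ := hord
  obtain ⟨σ, hσ, hσG⟩ := h.exists_inertia hp.out h2 hG hlev hun hA
  obtain ⟨g, hg, hdet⟩ := exists_det hp5 hcyc hA
  have htr : ∀ g ∈ A.inertiaSubgroupIn ℚ, g ∉ G → (r g).det = -1 := by
    intro g hg hgG
    have h3 := (hv g hg).2
    rw [h.swap g hgG] at h3
    exact (neg_eq_of_add_eq_zero_right h3.symm).symm
  apply hdet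
  by_cases hgG : g ∈ G
  · have h3 : σ * g ∉ G := fun hc =>
      hσG ((Subgroup.mul_mem_iff_of_index_two hG).mp hc |>.mpr hgG)
    have h4 := htr _ (mul_mem hσ hg) h3
    rw [map_mul, Matrix.det_mul, htr σ hσ hσG] at h4
    have h5 : (r g).det = 1 := by linear_combination -h4
    rw [h5, one_pow]
  · rw [htr g hg hgG]; norm_num

end Fermat.Agent.GalW
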