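import Fermat.Agent.GalW.Curve

/-!
# Big image for `E[p]`, `E` semistable, `E[p]` irreducible, `p` odd

* `noLine_mr`, `noLine_ext`, `noLine_residual` : no line over the algebraic closure is stable under
  a subgroup of index at most two;
* `exists_transvection_mr` : for `p = 3` the image contains a transvection.
-/

set_option autoImplicit false

noncomputable section

namespace Fermat.Agent.GalW

open WeierstrassCurve WeierstrassCurve.Affine FermatAgent.ECVal Fermat.Agent.ECRed
open Fermat.Agent.Tate Fermat.Agent.ECFrob Fermat.Agent.FlatGS IsLocalRing Fermat.Agent.Torsion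
open Fermat.Agent.S53norm (M2 HasMat)
open Fermat.Agent.FlatP Fermat.Agent.TW
open scoped WeierstrassCurve.Affine Matrix

variable {W : WeierstrassCurve ℤ} (hΔ : (W.map (Int.castRingHom ℚ)).Δ ≠ 0) (hΔ' : W.Δ ≠ 0)
  (p : ℕ) [hp : Fact p.Prime]

/-- No line over `L` is stable under a subgroup of index at most two. -/
def NoLineIn {k : Type} [Field k] (L : Type) [Field L] [Algebra k L] (r : GQ →* M2 k) : Prop :=
  ∀ G : Subgroup GQ, (G.index = 1 ∨ G.index = 2) → ∀ v : Fin 2 → L, v ≠ 0 →
    ¬ ∀ σ ∈ G, ∃ a : L, ((r σ).map (algebraMap k L)) *ᵥ v = a • v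

lemma NoLineIn.of_hom {k : Type} [Field k] {L L' : Type} [Field L] [Algebra k L] [Field L']
    [Algebra k L'] {r : GQ →* M2 k} (h : NoLineIn L r) (f : L' →ₐ[k] L) : NoLineIn L' r := by
  intro G hG v hv hstab
  refine h G hG (fun i => f (v i)) (fun h0 => hv ?_) fun σ hσ => ?_
  · funext i
    exact (map_eq_zero f).mp (congrFun h0 i)
  · obtain ⟨a, ha⟩ := hstab σ hσ
    refine ⟨f a, ?_⟩
    funext i
    have h1 := congrArg f (congrFun ha i)
    simp only [Matrix.mulVec, dotProduct, Matrix.map_apply, map_sum, map_mul, Pi.smul_apply,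
      smul_eq_mul, AlgHom.commutes] at h1 ⊢
    exact h1

lemma noLineIn_ext {k : Type} [Field k] {K L : Type} [Field K] [Field L] [Algebra k K]
    [Algebra K L] [Algebra k L] [IsScalarTower k K L] {r : GQ →* M2 k} :
    NoLineIn L (ext K r) ↔ NoLineIn L r := by
  have h : ∀ σ, ((ext K r σ).map (algebraMap K L)) = (r σ).map (algebraMap k L) := by
    intro σ
    ext i j
    rw [ext_apply, Matrix.map_apply, Matrix.map_apply, Matrix.map_apply,
      ← IsScalarTower.algebraMap_apply]
  unfold NoLineIn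
  simp only [h]

lemma noLine_conj {k : Type} [Field k] {r r' : GQ →* M2 k} (h : NoLine r) (U : (M2 k)ˣ)
    (hU : ∀ σ, U.val * r σ = r' σ * U.val) : NoLine r' := by
  intro G hG v hv hstab
  let F : M2 k →+* M2 (AlgebraicClosure k) := (algebraMap k (AlgebraicClosure k)).mapMatrix
  have hinv : F U⁻¹.val * F U.val = 1 := by rw [← map_mul, Units.inv_mul, map_one]
  have hinv' : F U.val * F U⁻¹.val = 1 := by rw [← map_mul, Units.mul_inv, map_one]
  refine h G hG (F U⁻¹.val *ᵥ v) (fun h0 => hv ?_) fun σ hσ => ?_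
  · have h1 := congrArg (fun w => F U.val *ᵥ w) h0
    simpa only [Matrix.mulVec_mulVec, hinv', Matrix.one_mulVec, Matrix.mulVec_zero] using h1
  · obtain ⟨a, ha⟩ := hstab σ hσ
    refine ⟨a, ?_⟩
    change F (r σ) *ᵥ (F U⁻¹.val *ᵥ v) = _
    have h2 : r σ * U⁻¹.val = U⁻¹.val * r' σ := by
      calc r σ * U⁻¹.val = U⁻¹.val * (U.val * r σ) * U⁻¹.val := by
            rw [← mul_assoc, Units.inv_mul, one_mul]
        _ = U⁻¹.val * r' σ := by
            rw [hU, mul_assoc, mul_assoc, Units.mul_inv, mul_one]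
    rw [Matrix.mulVec_mulVec, ← map_mul, h2, map_mul, ← Matrix.mulVec_mulVec]
    have h3 : F (r' σ) *ᵥ v = a • v := ha
    rw [h3, Matrix.mulVec_smul]

lemma pow48 (hΔ' : W.Δ ≠ 0) [Fact (Nat.Prime 3)] (σ : GQ) : mr hΔ' 3 σ ^ 48 = 1 := by
  have h1 : Nat.card (GL (Fin 2) (ZMod 3)) = 48 := by
    rw [Matrix.card_GL_field, ZMod.card]
    decide
  have h2 : ((mr hΔ' 3).toHomUnits σ : GL (Fin 2) (ZMod 3)) ^ 48 = 1 := by
    rw [← h1]; exact pow_card_eq_one'
  have h3 := congrArg Units.val h2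
  simpa using h3

/-- quadratic polynomials over `F_p` split over a field with `p²` elements. -/
lemma split_of_card (hp2 : p ≠ 2) {κ : Type} [Field κ] [Finite κ] [Algebra (ZMod p) κ]
    (hcard : Nat.card κ = p ^ 2) (X : M2 (ZMod p)) : ∃ α β : κ,
      (X.map (algebraMap (ZMod p) κ)).charpoly =
      (Polynomial.X - Polynomial.C α) * (Polynomial.X - Polynomial.C β) := by
  have := Fintype.ofFinite κ
  have hch : CharP κ p := charP_of_injective_algebraMap (algebraMap (ZMod p) κ).injective p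
  have h2 := two_ne_zero_of (k := κ) hp.out hp2
  set f := algebraMap (ZMod p) κ with hf
  have hsq : ∀ c : ZMod p, ∃ s : κ, s * s = f c := by
    intro c
    by_cases hc : c = 0
    · exact ⟨0, by rw [hc, map_zero, mul_zero]⟩
    · have h3 : IsSquare (f c) := by
        rw [FiniteField.isSquare_iff (by
          rw [ringChar.eq κ p]; exact hp2) ((map_ne_zero f).mpr hc)]
        have h4 : Fintype.card κ = p ^ 2 := by rw [← Nat.card_eq_fintype_card, hcard]
        rw [h4]
        obtain ⟨m, hm⟩ := hp.out.odd_of_ne_two hp2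
        have h5 : p ^ 2 / 2 = (p - 1) * (m + 1) := by
          have : p ^ 2 = 2 * ((2 * m) * (m + 1)) + 1 := by rw [hm]; ring
          have h6 : p - 1 = 2 * m := by omega
          rw [this, h6]
          omega
        rw [h5, pow_mul, ← map_pow, ZMod.pow_card_sub_one_eq_one hc, map_one, one_pow]
      obtain ⟨s, hs⟩ := h3
      exact ⟨s, hs.symm⟩
  obtain ⟨s, hs⟩ := hsq (X.trace ^ 2 - 4 * X.det)
  refine ⟨(f X.trace + s) / 2, (f X.trace - s) / 2, ?_⟩
  have htr : (X.map f).trace = f X.trace := by simp [Matrix.trace_fin_two]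
  have hdet : (X.map f).det = f X.det := by
    simp [Matrix.det_fin_two]
  rw [Matrix.charpoly_fin_two, htr, hdet]
  have h3 : f X.trace = (f X.trace + s) / 2 + (f X.trace - s) / 2 := by field_simp; ring
  have h4 : f X.det = (f X.trace + s) / 2 * ((f X.trace - s) / 2) := by
    have h5 : s * s = f X.trace ^ 2 - 4 * f X.det := by
      rw [hs, map_sub, map_mul, map_pow, map_ofNat]
    field_simp
    linear_combination h5
  rw [h4]
  nth_rewrite 1 [h3]
  rw [Polynomial.C_mul, Polynomial.C_add]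
  ring

/-- absolute irreducibility in terms of matrices. -/
lemma noFix_of {κ : Type} [Field κ] {ρbar : ResidualGaloisRep κ} {r : GQ →* M2 κ}
    (hr : HasMat (ρbar.ρ : GQ → _) r) (habs : ρbar.IsAbsolutelyIrreducible)
    (v : Fin 2 → AlgebraicClosure κ) (hv : v ≠ 0) :
      ¬ ∀ σ, ∃ a : AlgebraicClosure κ, ext (AlgebraicClosure κ) r σ *ᵥ v = a • v := by
  intro hstab
  obtain ⟨e, he⟩ : HasMat ((ρbar.baseChange (AlgebraicClosure κ)).ρ : GQ → _)
      (fun σ => (r σ).map (algebraMap κ (AlgebraicClosure κ))) :=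
    hr.baseChange (B := AlgebraicClosure κ)
  have h1 : ∀ σ, ∀ x ∈ Submodule.span (AlgebraicClosure κ) {e.symm v},
      (ρbar.baseChange (AlgebraicClosure κ)).ρ σ x ∈
        Submodule.span (AlgebraicClosure κ) {e.symm v} := by
    intro σ x hx
    obtain ⟨b, rfl⟩ := Submodule.mem_span_singleton.1 hx
    obtain ⟨a, ha⟩ := hstab σ
    have h2 : (ρbar.baseChange (AlgebraicClosure κ)).ρ σ (e.symm v) = a • e.symm v := by
      apply e.injective
      rw [he, LinearEquiv.apply_symm_apply, map_smul, LinearEquiv.apply_symm_apply]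
      exact ha
    rw [map_smul, h2]
    exact Submodule.smul_mem _ _ (Submodule.smul_mem _ _ (Submodule.mem_span_singleton_self _))
  have hne : e.symm v ≠ 0 := by simpa using hv
  rcases habs _ (fun σ x hx => h1 σ x hx) with h2 | h2
  · rw [Submodule.span_singleton_eq_bot] at h2
    exact hne h2
  · have h3 := (ρbar.baseChange (AlgebraicClosure κ)).finrank_eq
    have h4 : Module.finrank (AlgebraicClosure κ)
        (Submodule.span (AlgebraicClosure κ) {e.symm v}) = 1 := finrank_span_singleton hne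
    rw [h2, finrank_top, h3] at h4
    omega

lemma noFix_of' {κ : Type} [Field κ] {ρbar : ResidualGaloisRep κ} {r : GQ →* M2 κ}
    (hr : HasMat (ρbar.ρ : GQ → _) r) (habs : ρbar.IsAbsolutelyIrreducible)
    (v : Fin 2 → κ) (hv : v ≠ 0) : ¬ ∀ σ, ∃ a : κ, r σ *ᵥ v = a • v := by
  intro hstab
  refine noFix_of hr habs (fun i => algebraMap κ (AlgebraicClosure κ) (v i)) (fun h0 => hv ?_)
    fun σ => ?_
  · funext i
    exact (map_eq_zero _).mp (congrFun h0 i)
  · obtain ⟨a, ha⟩ := hstab σ
    refine ⟨algebraMap κ _ a, ?_⟩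
    funext i
    have h1 := congrArg (algebraMap κ (AlgebraicClosure κ)) (congrFun ha i)
    rw [ext_apply]
    simp only [Matrix.mulVec, dotProduct, Matrix.map_apply, map_sum, map_mul, Pi.smul_apply,
      smul_eq_mul] at h1 ⊢
    exact h1

/-- the map `ℤ_p → GF(p²)`. -/
def phi2 : ℤ_[p] →+* GaloisField p 2 := (algebraMap (ZMod p) (GaloisField p 2)).comp PadicInt.toZMod

lemma phi2_local : IsLocalHom (phi2 p) := by
  constructor
  intro a ha
  have h1 : PadicInt.toZMod a ≠ 0 := by
    intro h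
    rw [phi2, RingHom.comp_apply, h, map_zero] at ha
    exact not_isUnit_zero ha
  by_contra h2
  apply h1
  rw [← RingHom.mem_ker, PadicInt.ker_toZMod]
  exact h2

/-- `NoLine` for the extension of `E[p]` to the residue field of `GF(p²)`, and a common eigenvector
free statement. -/
lemma core (hW : W.IsSemistableModel) (hirr : W.ModRepIsIrreducible p) (hp2 : p ≠ 2) :
    ∃ (κ : Type) (_ : Field κ) (_ : Finite κ) (_ : Algebra (ZMod p) κ),
      NoLine (mrk hΔ' p κ) ∧
      (p = 3 → ∃ σ, mrk hΔ' p κ σ ≠ 1 ∧ (mrk hΔ' p κ σ - 1) * (mrk hΔ' p κ σ - 1) = 0) := by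
  have hΔ := ECFrob.map_Δ_ne_zero hΔ'
  let K := GaloisField p 2
  have hfK : Finite K := inferInstance
  let κ := ResidueField K
  let _ : Algebra (ZMod p) κ := ((algebraMap K κ).comp (algebraMap (ZMod p) K)).toAlgebra
  have hfin : Finite κ := Finite.of_surjective _ residue_surjective
  have hbij : Function.Bijective (residue K) := ⟨(residue K).injective, residue_surjective⟩
  have hcard : Nat.card κ = p ^ 2 := by
    rw [← Nat.card_congr (Equiv.ofBijective _ hbij)]
    exact GaloisField.card p 2 two_ne_zero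
  have hch : CharP κ p := charP_of_injective_algebraMap (algebraMap (ZMod p) κ).injective p
  have hr := hasMat_residual hΔ hΔ' p (phi2 p) (phi2_local p)
  have habs := tateO_residual_isAbsolutelyIrreducible hΔ p (phi2 p) (phi2_local p) hp2 hirr
  have hsplit := fun σ => split_of_card p hp2 hcard (mr hΔ' p σ)
  obtain ⟨A, hA⟩ : ∃ A : ValuationSubring Om, A.LiesOverPrime p :=
    ⟨_, CFT.Bridge.padicPlace_liesOverPrime p⟩
  have hloc := local_mrk hΔ' p (phi2 p) (phi2_local p) hW hp2 hsplit hA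
  have hlev := isFiniteLevel_ext (K := κ) (isFiniteLevel_mr hΔ' p)
  have hun := unipAway_mrk hΔ' p (phi2 p) (phi2_local p) hW hp2
  have h48 : p = 3 → ∀ σ, mrk hΔ' p κ σ ^ 48 = 1 := by
    rintro rfl σ
    have h1 := congrArg ((algebraMap (ZMod 3) κ).mapMatrix : M2 (ZMod 3) →+* M2 κ) (pow48 hΔ' σ)
    rw [map_pow, map_one] at h1
    exact h1
  refine ⟨κ, inferInstance, hfin, inferInstance,
    noLine hp2 (cycDet_mrk hΔ' p (phi2 p) (phi2_local p)) hlev hun hA hloc h48
      (noFix_of hr habs), ?_⟩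
  rintro rfl
  exact exists_transvection (h48 rfl) hlev hun hA hloc (noFix_of' hr habs)

/-- **`NoLine` for `E[p]`**, over any field containing `F_p` and algebraic over it. -/
theorem noLineIn_mr (hW : W.IsSemistableModel) (hirr : W.ModRepIsIrreducible p) (hp2 : p ≠ 2)
    (L : Type) [Field L] [Algebra (ZMod p) L] [Algebra.IsAlgebraic (ZMod p) L] :
    NoLineIn L (mr hΔ' p) := by
  obtain ⟨κ, _, _, _, h1, -⟩ := core hΔ' p hW hirr hp2
  have h2 : NoLineIn (AlgebraicClosure κ) (mrk hΔ' p κ) := h1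
  rw [noLineIn_ext] at h2
  exact h2.of_hom (IsAlgClosed.lift (R := ZMod p) (S := L) (M := AlgebraicClosure κ))

/-- **`NoLine` for `E[p]`.** -/
theorem noLine_mr (hW : W.IsSemistableModel) (hirr : W.ModRepIsIrreducible p) (hp2 : p ≠ 2) :
    NoLine (mr hΔ' p) :=
  noLineIn_mr hΔ' p hW hirr hp2 (AlgebraicClosure (ZMod p))

/-- **`NoLine` for `E[p] ⊗ κ`.** -/
theorem noLine_mrk (hW : W.IsSemistableModel) (hirr : W.ModRepIsIrreducible p) (hp2 : p ≠ 2)
    (κ : Type) [Field κ] [Finite κ] [Algebra (ZMod p) κ] : NoLine (mrk hΔ' p κ) := by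
  have : Algebra.IsAlgebraic (ZMod p) (AlgebraicClosure κ) :=
    Algebra.IsAlgebraic.trans (ZMod p) κ (AlgebraicClosure κ)
  have h1 : NoLineIn (AlgebraicClosure κ) (mrk hΔ' p κ) := by
    rw [noLineIn_ext]
    exact noLineIn_mr hΔ' p hW hirr hp2 (AlgebraicClosure κ)
  exact h1

/-- **`NoLine` for the residual representation of `T_p E ⊗ O`.** -/
theorem noLine_residual (hW : W.IsSemistableModel) (hirr : W.ModRepIsIrreducible p) (hp2 : p ≠ 2)
    {O : Type} [CommRing O] [IsLocalRing O] [Finite (ResidueField O)]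
    (φ : ℤ_[p] →+* O) (hφ : IsLocalHom φ) {r : GQ →* M2 (ResidueField O)}
    (hr : HasMat ((tateO hΔ p φ hφ).residual.ρ : GQ → _) r) : NoLine r := by
  have hΔ' := Δ_ne_zero_of_map hΔ
  have hpO : (p : ResidueField O) = 0 := by
    have h1 : φ (p : ℤ_[p]) ∈ maximalIdeal O := map_nonunit φ _ (natCast_mem_maximalIdeal p)
    rw [← residue_eq_zero_iff, map_natCast, map_natCast] at h1
    exact h1
  have hch : CharP (ResidueField O) p := by
    rw [CharP.charP_iff_prime_eq_zero hp.out]
    exact hpO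
  let _ : Algebra (ZMod p) (ResidueField O) := ZMod.algebra _ p
  obtain ⟨U, hU⟩ := (hasMat_residual hΔ hΔ' p φ hφ).exists_conj hr
  exact noLine_conj (noLine_mrk hΔ' p hW hirr hp2 (ResidueField O)) U hU

/-- **For `p = 3`, the image of `E[3]` contains a transvection.** -/
theorem exists_transvection_mr [Fact (Nat.Prime 3)] (hW : W.IsSemistableModel)
    (hirr : W.ModRepIsIrreducible 3) :
    ∃ σ, mr hΔ' 3 σ ≠ 1 ∧ (mr hΔ' 3 σ - 1) * (mr hΔ' 3 σ - 1) = 0 := by
  obtain ⟨κ, _, _, _, -, h1⟩ := core hΔ' 3 hW hirr (by norm_num)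
  obtain ⟨σ, h2, h3⟩ := h1 rfl
  let F : M2 (ZMod 3) →+* M2 κ := (algebraMap (ZMod 3) κ).mapMatrix
  have hF : Function.Injective F := Matrix.map_injective (algebraMap (ZMod 3) κ).injective
  refine ⟨σ, fun h4 => h2 ?_, hF ?_⟩
  · change F (mr hΔ' 3 σ) = 1
    rw [h4, map_one]
  · rw [map_mul, map_sub, map_one, map_zero]
    exact h3

end Fermat.Agent.GalW

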