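import Fermat.Agent.FlatP.CountSS
import Fermat.Agent.FlatP.ShapeMat
import Fermat.Agent.FlatP.FlatStrict
import Fermat.Agent.Minkowski.Trivial
import Fermat.Agent.CFT.SKummer.Omega

/-!
# Big image for residual representations of semistable curves: linear algebra

The group theory behind: no line is stable under a subgroup of index two; a mod `3` representation
has a transvection in its image.
-/

set_option autoImplicit false

namespace Fermat.Agent.GalW

open Fermat.Agent.FlatGS Fermat.Agent.MazurMult FermatAgent.ECVal IsLocalRing Matrix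
open Fermat.Agent.S53norm (M2)
open Fermat.Agent.FlatP Fermat.Agent.TW
open scoped Pointwise

variable {k : Type} [Field k]

/-- `r` is unipotent on the inertia groups away from `p`. -/
def UnipAway (p : ℕ) (r : GQ →* M2 k) : Prop :=
  ∀ ℓ : ℕ, ℓ.Prime → ℓ ≠ p → ∀ A : ValuationSubring Om, A.LiesOverPrime ℓ →
    ∀ σ ∈ A.inertiaSubgroupIn ℚ, (r σ - 1) * (r σ - 1) = 0

/-- inertia at `A` has a stable line with trivial quotient. -/
def OrdAt (A : ValuationSubring Om) (r : GQ →* M2 k) : Prop :=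
  ∃ v : Fin 2 → k, v ≠ 0 ∧ ∀ σ ∈ A.inertiaSubgroupIn ℚ,
    (∃ a : k, r σ *ᵥ v = a • v) ∧ (r σ).trace = 1 + (r σ).det

/-- inertia at `A` acts through fundamental characters of level two. -/
def SSAt (p : ℕ) (A : ValuationSubring Om) (r : GQ →* M2 k) : Prop :=
  ∃ (v₁ v₂ : Fin 2 → k) (ψ : GQ → k), LinearIndependent k ![v₁, v₂] ∧
    (∀ g ∈ A.inertiaSubgroupIn ℚ, r g *ᵥ v₁ = ψ g • v₁ ∧ r g *ᵥ v₂ = ψ g ^ p • v₂) ∧
    ∃ h ∈ A.inertiaSubgroupIn ℚ, orderOf (ψ h) = p ^ 2 - 1

lemma mulVec_ext {K : Type} [Field K] {X Y : M2 K} (h : ∀ v : Fin 2 → K, X *ᵥ v = Y *ᵥ v) :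
    X = Y := by
  ext i j
  have := congrFun (h (Pi.single j 1)) i
  simpa [Matrix.mulVec_single] using this

/-- a diagonalizable unipotent matrix is trivial. -/
lemma eq_one_of_unip {K : Type} [Field K] {X : M2 K} {v w : Fin 2 → K}
    (hli : LinearIndependent K ![v, w]) {a b : K} (hv : X *ᵥ v = a • v) (hw : X *ᵥ w = b • w)
    (hX : (X - 1) * (X - 1) = 0) : X = 1 := by
  have key : ∀ (u : Fin 2 → K) (c : K), u ≠ 0 → X *ᵥ u = c • u → c = 1 := by
    intro u c hu h
    have h1 : (X - 1) *ᵥ u = (c - 1) • u := by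
      rw [Matrix.sub_mulVec, h, Matrix.one_mulVec, sub_smul, one_smul]
    have h2 : ((X - 1) * (X - 1)) *ᵥ u = ((c - 1) * (c - 1)) • u := by
      rw [← Matrix.mulVec_mulVec, h1, Matrix.mulVec_smul, h1, smul_smul]
    rw [hX, Matrix.zero_mulVec] at h2
    have h3 := (smul_eq_zero.mp h2.symm).resolve_right hu
    exact sub_eq_zero.mp (mul_self_eq_zero.mp h3)
  have hv0 : v ≠ 0 := hli.ne_zero 0
  have hw0 : w ≠ 0 := hli.ne_zero 1
  have ha := key v a hv0 hv
  have hb := key w b hw0 hw
  apply mulVec_ext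
  intro u
  obtain ⟨c, d, hu⟩ := exists_coord hli u
  rw [hu, Matrix.mulVec_add, Matrix.mulVec_smul, Matrix.mulVec_smul, hv, hw, ha, hb, one_smul,
    one_smul, Matrix.one_mulVec]

/-- a matrix swapping two lines has trace zero. -/
lemma trace_eq_zero_of_swap {K : Type} [Field K] {X : M2 K} {v w : Fin 2 → K}
    (hli : LinearIndependent K ![v, w]) {a b : K} (hv : X *ᵥ v = a • w) (hw : X *ᵥ w = b • v) :
    X.trace = 0 := by
  obtain ⟨U, hU⟩ := exists_unit_basis hli
  have h1 := hU X 0 b a 0 (by rw [zero_smul, zero_add, hv]) (by rw [zero_smul, add_zero, hw])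
  have h2 : X.trace = ((U : M2 K) * X * (U⁻¹ : (M2 K)ˣ)).trace := by
    rw [Matrix.trace_mul_comm, ← mul_assoc, Units.inv_mul, one_mul]
  rw [h2, h1]
  simp [Matrix.trace_fin_two]

lemma eq_one_of_sq {K : Type} [Field K] (h2 : (2 : K) ≠ 0) {X : M2 K}
    (hX : (X - 1) * (X - 1) = 0) (hX2 : X * X = 1) : X = 1 := by
  have h1 : (X - 1) * (X - 1) = X * X - (2 : K) • X + 1 := by
    rw [two_smul]; noncomm_ring
  rw [h1, hX2] at hX
  have h3 : (2 : K) • (1 - X) = 0 := by
    rw [smul_sub, ← hX, two_smul]; abel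
  have h4 := (smul_eq_zero.mp h3).resolve_left h2
  exact (sub_eq_zero.mp h4).symm

lemma sq_unip {K : Type} [Field K] {X : M2 K} (hX : (X - 1) * (X - 1) = 0) :
    (X * X - 1) * (X * X - 1) = 0 := by
  have h1 : X * X - 1 = (X - 1) * (X + 1) := by noncomm_ring
  have h2 : (X - 1) * (X + 1) = (X + 1) * (X - 1) := by noncomm_ring
  rw [h1]
  nth_rewrite 1 [h2]
  calc (X + 1) * (X - 1) * ((X - 1) * (X + 1)) = (X + 1) * ((X - 1) * (X - 1)) * (X + 1) := by
        noncomm_ring
    _ = 0 := by rw [hX, mul_zero, zero_mul]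

/-- a `2 × 2` nilpotent matrix has square zero. -/
lemma sq_eq_zero_of_cube {K : Type} [Field K] {N : M2 K} (h : N * N * N = 0) : N * N = 0 := by
  have hdet : N.det = 0 := by
    have := congrArg Matrix.det h
    rw [Matrix.det_mul, Matrix.det_mul, Matrix.det_zero] at this
    exact pow_eq_zero_iff (n := 3) (by norm_num) |>.mp (by rw [← this]; ring)
  have hCH : N * N = N.trace • N := by
    have h1 : N * N - N.trace • N + N.det • (1 : M2 K) = 0 := by
      ext i j
      fin_cases i <;> fin_cases j <;>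
        simp [Matrix.mul_apply, Fin.sum_univ_two, Matrix.trace_fin_two, Matrix.det_fin_two] <;> ring
    rw [hdet, zero_smul, add_zero, sub_eq_zero] at h1
    exact h1
  have h2 : (N.trace * N.trace) • N = 0 := by
    rw [← h, hCH, Matrix.smul_mul, hCH, smul_smul]
  rcases smul_eq_zero.mp h2 with h3 | h3
  · rw [hCH, mul_self_eq_zero.mp h3, zero_smul]
  · rw [h3, mul_zero]

/-- in characteristic `3`, an element of order dividing `3` is unipotent. -/
lemma unip_of_cube {K : Type} [Field K] (h3 : (3 : K) = 0) {X : M2 K} (h : X * X * X = 1) :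
    (X - 1) * (X - 1) = 0 := by
  apply sq_eq_zero_of_cube
  have h1 : (X - 1) * (X - 1) * (X - 1) = X * X * X - 1 - (3 : K) • (X * X - X) := by
    have : (3 : K) = 1 + 1 + 1 := by norm_num
    rw [this, add_smul, add_smul, one_smul]
    noncomm_ring
  rw [h1, h, h3, zero_smul, sub_self, sub_zero]

end Fermat.Agent.GalW
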