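import Fermat.Agent.GalW.Three
import Fermat.Agent.EC.TateDatum
import Fermat.Agent.S41.NonEisH

/-!
# `E[p]` as a matrix representation and the residual representation of `T_p E`
-/

set_option autoImplicit false

noncomputable section

namespace Fermat.Agent.GalW

open WeierstrassCurve WeierstrassCurve.Affine FermatAgent.ECVal Fermat.Agent.ECRed
open Fermat.Agent.Tate Fermat.Agent.ECFrob Fermat.Agent.FlatGS
open Fermat.Agent.S53norm (M2 HasMat)
open Fermat.Agent.FlatP Fermat.Agent.TW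
open scoped WeierstrassCurve.Affine Matrix

variable {W : WeierstrassCurve ℤ} (hΔ : (W.map (Int.castRingHom ℚ)).Δ ≠ 0)
  (p : ℕ) [hp : Fact p.Prime]

/-- the reduction `T_p E → E[p]`. -/
def red1 : (tateRep (W.map (Int.castRingHom ℚ)) hΔ p).V →+
    Submodule.torsionBy ℤ ((W.map (Int.castRingHom ℚ))⁄(AlgebraicClosure ℚ)).Point (p : ℤ) where
  toFun v := ⟨toT hΔ v 1, mem_torsionBy_nat.mpr (by
    have := TMod.pow_smul_apply (toT hΔ v) 1
    rwa [pow_one] at this)⟩
  map_zero' := rfl
  map_add' _ _ := rfl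

lemma red1_surjective : Function.Surjective (red1 (W := W) hΔ p) := by
  intro x
  obtain ⟨f, hf⟩ := (hasTwoRank_curve hΔ p).exists_apply_eq (n := 1) (x := (x : _))
    (by rw [pow_one]; exact mem_torsionBy_nat.mp x.2)
  exact ⟨f, Subtype.ext hf⟩

lemma red1_eq_zero_iff (v : (tateRep (W.map (Int.castRingHom ℚ)) hΔ p).V) :
    red1 hΔ p v = 0 ↔ ∃ w : (tateRep (W.map (Int.castRingHom ℚ)) hΔ p).V,
      v = (p : ℤ_[p]) • w := by
  have h := TMod.apply_eq_zero_iff (p := p) (A := (EQ W).Point) (toT hΔ v) 1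
  rw [pow_one] at h
  rw [Subtype.ext_iff]
  exact h

lemma red1_ρ (σ : GQ) (v : (tateRep (W.map (Int.castRingHom ℚ)) hΔ p).V) :
    red1 hΔ p ((tateRep (W.map (Int.castRingHom ℚ)) hΔ p).ρ σ v) =
      rho W p σ (red1 hΔ p v) := rfl

/-- **A matrix of `T_p E` which reduces to a matrix of `E[p]`.** -/
theorem exists_hasMat_tate : ∃ R : GQ → M2 ℤ_[p],
    HasMat ((tateRep (W.map (Int.castRingHom ℚ)) hΔ p).ρ : GQ → _) R ∧
    HasMat (rho W p : GQ → _) (fun σ => (R σ).map PadicInt.toZMod) := by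
  obtain ⟨R, e, he⟩ := S53norm.exists_hasMat_adic (tateRep (W.map (Int.castRingHom ℚ)) hΔ p)
  refine ⟨R, ⟨e, he⟩, ?_⟩
  -- the two surjections
  let P : (Fin 2 → ℤ_[p]) →+ Submodule.torsionBy ℤ
      ((W.map (Int.castRingHom ℚ))⁄(AlgebraicClosure ℚ)).Point (p : ℤ) :=
    (red1 hΔ p).comp (e.symm : (Fin 2 → ℤ_[p]) ≃ₗ[ℤ_[p]] _).toAddEquiv.toAddMonoidHom
  let Q : (Fin 2 → ℤ_[p]) →+ (Fin 2 → ZMod p) :=
    { toFun := fun x i => PadicInt.toZMod (x i)
      map_zero' := by funext i; simp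
      map_add' := fun x y => by funext i; simp }
  have hPs : Function.Surjective P := (red1_surjective hΔ p).comp e.symm.surjective
  have hQs : Function.Surjective Q := by
    intro y
    refine ⟨fun i => ((y i).val : ℤ_[p]), ?_⟩
    funext i
    change PadicInt.toZMod (((y i).val : ℕ) : ℤ_[p]) = y i
    rw [map_natCast, ZMod.natCast_zmod_val]
  have hker : ∀ x, P x = 0 ↔ Q x = 0 := by
    intro x
    have h1 : P x = 0 ↔ ∃ w, e.symm x = (p : ℤ_[p]) • w := red1_eq_zero_iff hΔ p _
    rw [h1]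
    constructor
    · rintro ⟨w, hw⟩
      have h2 : x = (p : ℤ_[p]) • e w := by
        rw [← map_smul, ← hw, LinearEquiv.apply_symm_apply]
      funext i
      change PadicInt.toZMod (x i) = 0
      rw [h2, Pi.smul_apply, smul_eq_mul, map_mul, map_natCast, CharP.cast_eq_zero, zero_mul]
    · intro h
      have h2 : ∀ i, ∃ y, x i = (p : ℤ_[p]) * y := by
        intro i
        have h3 : PadicInt.toZMod (x i) = 0 := congrFun h i
        rw [← RingHom.mem_ker, PadicInt.ker_toZMod, PadicInt.maximalIdeal_eq_span_p,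
          Ideal.mem_span_singleton] at h3
        exact h3
      choose y hy using h2
      refine ⟨e.symm y, ?_⟩
      rw [← map_smul]
      congr 1
      funext i
      rw [hy i]; rfl
  let L : Submodule.torsionBy ℤ
      ((W.map (Int.castRingHom ℚ))⁄(AlgebraicClosure ℚ)).Point (p : ℤ) →+ (Fin 2 → ZMod p) :=
    P.liftOfRightInverse (Function.surjInv hPs) (Function.rightInverse_surjInv hPs)
      ⟨Q, fun x hx => (hker x).mp hx⟩
  have hL : ∀ x, L (P x) = Q x := fun x =>
    P.liftOfRightInverse_comp_apply (Function.surjInv hPs) (Function.rightInverse_surjInv hPs)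
      ⟨Q, fun x hx => (hker x).mp hx⟩ x
  have hLb : Function.Bijective L := by
    constructor
    · rw [injective_iff_map_eq_zero]
      intro a ha
      obtain ⟨x, rfl⟩ := hPs a
      rw [hL] at ha
      exact (hker x).mpr ha
    · intro y
      obtain ⟨x, hx⟩ := hQs y
      exact ⟨P x, by rw [hL, hx]⟩
  refine ⟨LinearEquiv.ofBijective (L.toZModLinearMap p) hLb, fun σ v => ?_⟩
  obtain ⟨x, rfl⟩ := hPs v
  change L (rho W p σ (P x)) = _
  have h1 : rho W p σ (P x) = P (R σ *ᵥ x) := by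
    change rho W p σ (red1 hΔ p (e.symm x)) = red1 hΔ p (e.symm (R σ *ᵥ x))
    rw [← red1_ρ]
    congr 1
    apply e.injective
    rw [he, LinearEquiv.apply_symm_apply, LinearEquiv.apply_symm_apply]
  rw [h1, hL]
  change Q (R σ *ᵥ x) = (R σ).map PadicInt.toZMod *ᵥ L (P x)
  rw [hL]
  funext i
  change PadicInt.toZMod ((R σ *ᵥ x) i) = _
  simp only [Matrix.mulVec, dotProduct, Matrix.map_apply, map_sum, map_mul]
  rfl

end Fermat.Agent.GalW
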