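import Fermat.Agent.GalW.Compare

/-!
# The local and global properties of the matrix representation of `E[p]`
-/

set_option autoImplicit false

noncomputable section

namespace Fermat.Agent.GalW

open WeierstrassCurve WeierstrassCurve.Affine FermatAgent.ECVal Fermat.Agent.ECRed
open Fermat.Agent.Tate Fermat.Agent.ECFrob Fermat.Agent.FlatGS IsLocalRing Fermat.Agent.Torsion
open Fermat.Agent.S53norm (M2 HasMat)
open Fermat.Agent.FlatP Fermat.Agent.TW
open scoped WeierstrassCurve.Affine Matrix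

variable {W : WeierstrassCurve ℤ} (hΔ : (W.map (Int.castRingHom ℚ)).Δ ≠ 0) (hΔ' : W.Δ ≠ 0)
  (p : ℕ) [hp : Fact p.Prime]

/-- the matrices of `E[p]`. -/
abbrev mr : GQ →* M2 (ZMod p) := S41neh.mrep (p := p) hΔ'

lemma hasMat_mr : HasMat (rho W p : GQ → _) (mr hΔ' p) := by
  have := finite_rat hΔ' hp.out.ne_zero
  have : Module.Finite (ZMod p)
      (Submodule.torsionBy ℤ ((W.map (Int.castRingHom ℚ))⁄(AlgebraicClosure ℚ)).Point p) :=
    Module.Finite.of_finite
  let b := Module.finBasisOfFinrankEq _ _ (finrank_rat hΔ' (p := p))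
  refine ⟨b.equivFun, fun σ v => ?_⟩
  have h1 : (LinearMap.toMatrix b b (rho W p σ)).mulVec (b.repr v) =
      b.repr (rho W p σ v) := LinearMap.toMatrix_mulVec_repr b b _ _
  exact h1.symm

variable {O : Type} [CommRing O] [IsLocalRing O]
  (φ : ℤ_[p] →+* O) (hφ : IsLocalHom φ) [Algebra (ZMod p) (ResidueField O)]

include hφ in
lemma residue_comp : (residue O).comp φ = (algebraMap (ZMod p) (ResidueField O)).comp
    PadicInt.toZMod := by
  ext x
  have h1 := PadicInt.toZMod_spec x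
  rw [RingHom.comp_apply, RingHom.comp_apply]
  have h2 : φ (x - (ZMod.cast (PadicInt.toZMod x) : ℤ_[p])) ∈ maximalIdeal O :=
    map_nonunit φ _ h1
  rw [← residue_eq_zero_iff, map_sub, map_sub, sub_eq_zero] at h2
  rw [h2]
  have h3 : (ZMod.cast (PadicInt.toZMod x) : ℤ_[p]) = (((PadicInt.toZMod x).val : ℕ) : ℤ_[p]) :=
    ZMod.cast_eq_val _
  rw [h3, map_natCast, map_natCast, ← map_natCast (algebraMap (ZMod p) (ResidueField O)),
    ZMod.natCast_zmod_val]

/-- the matrices of `E[p] ⊗ k`. -/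
abbrev mrk (κ : Type) [Field κ] [Algebra (ZMod p) κ] : GQ →* M2 κ := ext κ (mr hΔ' p)

omit [Algebra (ZMod p) (ResidueField O)] in
lemma exists_hasMat_O : ∃ R : GQ → M2 ℤ_[p], ∃ U : (M2 (ZMod p))ˣ,
    HasMat ((tateO hΔ p φ hφ).ρ : GQ → _) (fun σ => (R σ).map φ) ∧
    ∀ σ, mr hΔ' p σ = U * (R σ).map PadicInt.toZMod * (U⁻¹ : (M2 (ZMod p))ˣ) := by
  obtain ⟨R, h1, h2⟩ := exists_hasMat_tate hΔ p
  obtain ⟨U, hU⟩ := h2.exists_conj (hasMat_mr hΔ' p)
  refine ⟨R, U, h1.baseChangeAlong φ hφ, fun σ => ?_⟩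
  rw [hU σ, mul_assoc, Units.mul_inv, mul_one]

/-- **The residual representation of `T_p E ⊗ O` is `E[p] ⊗ k`.** -/
theorem hasMat_residual : HasMat ((tateO hΔ p φ hφ).residual.ρ : GQ → _)
    (mrk hΔ' p (ResidueField O)) := by
  obtain ⟨R, U, h1, h2⟩ := exists_hasMat_O hΔ hΔ' p φ hφ
  let U' : (M2 (ResidueField O))ˣ :=
    Units.map ((algebraMap (ZMod p) (ResidueField O)).mapMatrix : M2 (ZMod p) →+* M2 (ResidueField O)) U
  refine (h1.residual.conj U').of_eq fun σ => ?_
  change _ = (mr hΔ' p σ).map (algebraMap (ZMod p) (ResidueField O))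
  rw [h2]
  have h3 : ((R σ).map φ).map (residue O) =
      ((R σ).map PadicInt.toZMod).map (algebraMap (ZMod p) (ResidueField O)) := by
    ext i j
    have := congrArg (fun f : ℤ_[p] →+* ResidueField O => f (R σ i j)) (residue_comp p φ hφ)
    exact this
  rw [h3]
  let F : M2 (ZMod p) →+* M2 (ResidueField O) :=
    (algebraMap (ZMod p) (ResidueField O)).mapMatrix
  change F U * F ((R σ).map PadicInt.toZMod) * F ((U⁻¹ : (M2 (ZMod p))ˣ) : M2 (ZMod p)) = F _
  rw [← map_mul, ← map_mul]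

theorem hasMat_bc : HasMat (((tateO hΔ p φ hφ).baseChangeAlong (residue O) inferInstance).ρ :
    GQ → _) (mrk hΔ' p (ResidueField O)) := by
  obtain ⟨R, h1⟩ := S53norm.exists_hasMat_adic (tateO hΔ p φ hφ)
  obtain ⟨U, hU⟩ := h1.residual.exists_conj (hasMat_residual hΔ hΔ' p φ hφ)
  refine ((h1.baseChangeAlong (residue O) inferInstance).conj U).of_eq fun σ => ?_
  rw [hU σ, mul_assoc, Units.mul_inv, mul_one]

lemma isFiniteLevel_mr : IsFiniteLevel (mr hΔ' p) := by
  obtain ⟨L, hL, h1⟩ := galoisRep_factors (ECFrob.map_Δ_ne_zero hΔ') hp.out.ne_zero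
  refine ⟨L, hL, fun σ hσ => ?_⟩
  have h2 : rho W p σ = 1 := h1 σ hσ
  exact S53norm.mat_ext fun v => by
    obtain ⟨e, he⟩ := hasMat_mr hΔ' p
    have := he σ (e.symm v)
    rw [h2] at this
    simpa using this.symm

lemma isFiniteLevel_ext {k : Type} [Field k] {K : Type} [Field K] [Algebra k K] {r : GQ →* M2 k}
    (h : IsFiniteLevel r) : IsFiniteLevel (ext K r) := by
  obtain ⟨L, hL, h1⟩ := h
  refine ⟨L, hL, fun σ hσ => ?_⟩
  rw [ext_apply, h1 σ hσ]
  simp

/-- Cayley-Hamilton for unipotent charpoly. -/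
lemma unip_of_charpoly {k : Type} [Field k] {X : M2 k}
    (h : X.charpoly = (Polynomial.X - 1) ^ 2) : (X - 1) * (X - 1) = 0 := by
  have h1 := Matrix.aeval_self_charpoly X
  rw [h, map_pow, map_sub, Polynomial.aeval_X, map_one, sq] at h1
  exact h1

section facts

variable [Finite (ResidueField O)]

omit [Finite (ResidueField O)] in
lemma charP_res : CharP (ResidueField O) p := by
  exact charP_of_injective_algebraMap (algebraMap (ZMod p) (ResidueField O)).injective p

omit [Finite (ResidueField O)] in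
include hφ in
lemma cycDet_mrk : CycDet p (mrk hΔ' p (ResidueField O)) := by
  have hΔ := ECFrob.map_Δ_ne_zero hΔ'
  have h1 := (tateO_detIsCyclotomic hΔ p φ hφ)
  have h2 := detIsCyclotomic_baseChange (residue O) inferInstance h1
  rw [detIsCyclotomic_iff (hasMat_bc hΔ hΔ' p φ hφ)] at h2
  intro σ a ha
  have h3 := h2.2 1 σ a (by simpa using ha)
  have := charP_res (O := O) p
  have h4 : ((p ^ 1 : ℕ) : ResidueField O) = 0 := by
    rw [pow_one]; exact CharP.cast_eq_zero _ p
  rw [h4, Ideal.span_singleton_zero, Ideal.mem_bot, sub_eq_zero] at h3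
  exact h3

omit [Finite (ResidueField O)] in
include hφ in
lemma unipAway_mrk (hW : W.IsSemistableModel) (hp2 : p ≠ 2) :
    UnipAway p (mrk hΔ' p (ResidueField O)) := by
  have hΔ := ECFrob.map_Δ_ne_zero hΔ'
  intro ℓ hℓ hℓp A hA σ hσ
  have h1 : (tateO hΔ p φ hφ).IsUnipotentOnInertiaAt ℓ :=
    isUnipotentOnInertiaAt_baseChange φ hφ (tateRep_unipotent_of_semistable hΔ p hW hp2 hℓ hℓp)
  have h2 := isUnipotentOnInertiaAt_baseChange (residue O) inferInstance h1
  rw [isUnipotentOnInertiaAt_iff (hasMat_bc hΔ hΔ' p φ hφ)] at h2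
  exact unip_of_charpoly (h2 A hA σ hσ)

include hφ in
lemma local_mrk (hW : W.IsSemistableModel) (hp2 : p ≠ 2)
    (hsplit : ∀ σ, ∃ α β : ResidueField O, (mrk hΔ' p (ResidueField O) σ).charpoly =
      (Polynomial.X - Polynomial.C α) * (Polynomial.X - Polynomial.C β))
    {A : ValuationSubring Om} (hA : A.LiesOverPrime p) :
    OrdAt A (mrk hΔ' p (ResidueField O)) ∨ SSAt p A (mrk hΔ' p (ResidueField O)) := by
  have hΔ := ECFrob.map_Δ_ne_zero hΔ'
  have hch := charP_res (O := O) p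
  have hcyc := cycDet_mrk hΔ' p φ hφ
  have key : ∀ U : (M2 (ResidueField O))ˣ, (∀ σ ∈ A.inertiaSubgroupIn ℚ,
      (U.val * mrk hΔ' p (ResidueField O) σ * U⁻¹.val) 1 0 = 0 ∧
      (U.val * mrk hΔ' p (ResidueField O) σ * U⁻¹.val) 1 1 = 1) →
      OrdAt A (mrk hΔ' p (ResidueField O)) := by
    intro U hU
    refine ⟨(U⁻¹ : (M2 (ResidueField O))ˣ).val *ᵥ Pi.single 0 1, fun h0 => ?_, fun σ hσ => ?_⟩
    · have h1 := congrArg (fun v => U.val *ᵥ v) h0
      simp only [Matrix.mulVec_mulVec, Units.mul_inv, Matrix.one_mulVec, Matrix.mulVec_zero] at h1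
      have := congrFun h1 0
      simp at this
    · obtain ⟨h1, h2⟩ := hU σ hσ
      set X := mrk hΔ' p (ResidueField O) σ with hX
      set Y := U.val * X * U⁻¹.val with hY
      have hXY : X = (U⁻¹ : (M2 (ResidueField O))ˣ).val * Y * U.val := by
        rw [hY]
        simp only [mul_assoc, Units.inv_mul, mul_one]
        rw [← mul_assoc, Units.inv_mul, one_mul]
      constructor
      · refine ⟨Y 0 0, ?_⟩
        rw [hXY, Matrix.mulVec_mulVec, mul_assoc, Units.mul_inv, mul_one, ← Matrix.mulVec_mulVec]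
        have h3 : Y *ᵥ Pi.single 0 1 = Y 0 0 • Pi.single 0 1 := by
          funext i
          fin_cases i
          · simp
          · simp [h1]
        rw [h3, Matrix.mulVec_smul]
      · have h4 : X.trace = Y.trace := by
          rw [hY, Matrix.trace_mul_comm, ← mul_assoc, Units.inv_mul, one_mul]
        have h5 : X.det = Y.det := by
          rw [hY, Matrix.det_units_conj]
        rw [h4, h5, Matrix.trace_fin_two, Matrix.det_fin_two, h1, h2]
        ring
  by_cases hgood : W.IsGoodPrimeFor p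
  · have hfin : Finite (ResidueField (ResidueField O)) := Finite.of_surjective _ residue_surjective
    have h1 : (tateO hΔ p φ hφ).IsFlatAt p :=
      isFlatAt_baseChangeAlong φ hφ _ inferInstance (tateRep_isFlatAt hΔ p hgood)
    have h2 := isFlatAt_baseChangeAlong (residue O) inferInstance _ inferInstance h1
    have h3 := isFlatModule_of_hasMat h2 (hasMat_bc hΔ hΔ' p φ hφ)
    rcases shape_matrix hp.out hp2 hA (isFiniteLevel_ext (isFiniteLevel_mr hΔ' p)) h3 hcyc hsplit
      with ⟨U, hU⟩ | hss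
    · left
      exact key U fun σ hσ => ⟨(hU σ (inertia_le_decomp hσ)).1, (hU σ (inertia_le_decomp hσ)).2 hσ⟩
    · right
      have h3 := two_le_sq_sub_one hp.out
      obtain ⟨π, hπ⟩ : ∃ π : Om, π ^ (p ^ 2 - 1) = (p : Om) :=
        IsAlgClosed.exists_pow_nat_eq _ (by omega)
      obtain ⟨ι, ψ, v₁, v₂, hli, hψ⟩ := hss π hπ
      refine ⟨v₁, v₂, ψ, hli, fun g hg => ⟨(hψ g hg).2.1, (hψ g hg).2.2.1⟩, ?_⟩
      exact exists_order hA hπ ι ψ fun g hg => (hψ g hg).1
  · left
    have h1 : (tateO hΔ p φ hφ).IsStrictOrdinaryAt p :=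
      isStrictOrdinaryAt_baseChange φ hφ (tateRep_strictOrdinary hΔ
        (isMultAt_of_semistable hW hΔ' hp.out (not_not.mp hgood)) hp2)
    have h2 := isStrictOrdinaryAt_baseChange (residue O) inferInstance h1
    rw [isStrictOrdinaryAt_iff] at h2
    obtain ⟨r', hr', h'⟩ := h2.2 A hA
    obtain ⟨U, hU⟩ := (hasMat_bc hΔ hΔ' p φ hφ).exists_conj hr'
    refine key U fun σ hσ => ?_
    obtain ⟨h4, h5, -⟩ := h' σ (inertia_le_decomp hσ)
    rw [hU σ, mul_assoc, Units.mul_inv, mul_one]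
    exact ⟨h4, h5 hσ⟩

end facts

end Fermat.Agent.GalW
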