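import Fermat.Agent.GalW.NoLine

/-!
# Transvections in the image for `p = 3`; the final form of `NoLine`
-/

set_option autoImplicit false

namespace Fermat.Agent.GalW

open Fermat.Agent.FlatGS Fermat.Agent.MazurMult FermatAgent.ECVal IsLocalRing Matrix
open Fermat.Agent.S53norm (M2)
open Fermat.Agent.FlatP Fermat.Agent.TW
open scoped Pointwise

variable {k : Type} [Field k] {p : ℕ} {r : GQ →* M2 k}

/-- In a finite nilpotent group, a subgroup whose normal closure is everything is everything. -/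
lemma eq_top_of_normalClosure {P : Type*} [Group P] [Finite P] [Group.IsNilpotent P]
    {C : Subgroup P} (h : ∀ M : Subgroup P, M.Normal → C ≤ M → M = ⊤) : C = ⊤ := by
  by_contra hC
  obtain ⟨M, hM, hCM⟩ := (eq_top_or_exists_le_coatom C).resolve_left hC
  exact hM.1 (h M (Subgroup.NormalizerCondition.normal_of_coatom M
    Group.normalizerCondition_of_isNilpotent hM) hCM)

/-- **A mod `3` representation of a semistable curve has a transvection in its image.** -/
theorem exists_transvection [Finite k] [CharP k 3] (hr48 : ∀ σ, r σ ^ 48 = 1)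
    (hlev : IsFiniteLevel r) (hun : UnipAway 3 r) {A : ValuationSubring Om}
    (hA : A.LiesOverPrime 3) (hloc : OrdAt A r ∨ SSAt 3 A r)
    (hirr : ∀ v : Fin 2 → k, v ≠ 0 → ¬ ∀ σ, ∃ a : k, r σ *ᵥ v = a • v) :
    ∃ σ, r σ ≠ 1 ∧ (r σ - 1) * (r σ - 1) = 0 := by
  by_contra hcon
  push Not at hcon
  have h3 : (3 : k) = 0 := by
    have := CharP.cast_eq_zero k 3
    exact_mod_cast this
  have hu : ∀ σ, (r σ - 1) * (r σ - 1) = 0 → r σ = 1 := by
    intro σ h
    by_contra h1
    exact hcon σ h1 h
  let f : GQ →* (M2 k)ˣ := r.toHomUnits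
  have hf : ∀ σ, ((f σ : (M2 k)ˣ) : M2 k) = r σ := fun σ => rfl
  have hf1 : ∀ σ, f σ = 1 ↔ r σ = 1 := fun σ => by
    rw [← hf, Units.val_eq_one]
  have hM2 : Finite (M2 k) := TW.finite_M2' k
  have hfin : Finite f.range := inferInstance
  have hP : IsPGroup 2 f.range := by
    rintro ⟨x, σ, rfl⟩
    refine ⟨4, ?_⟩
    apply Subtype.ext
    change f σ ^ 2 ^ 4 = 1
    rw [← map_pow, hf1]
    apply hu
    apply unip_of_cube h3
    rw [← map_mul, ← map_mul, ← pow_add, ← pow_add, map_pow]
    exact hr48 σ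
  have : Fact (Nat.Prime 2) := ⟨Nat.prime_two⟩
  have hnil : Group.IsNilpotent f.range := hP.isNilpotent
  have htop : (A.inertiaSubgroupIn ℚ).map f.rangeRestrict = ⊤ := by
    apply eq_top_of_normalClosure
    intro M hM hCM
    have hn : (M.comap f.rangeRestrict).Normal := hM.comap _
    have hker : ∀ σ, r σ = 1 → σ ∈ M.comap f.rangeRestrict := by
      intro σ hσ
      rw [Subgroup.mem_comap]
      have : f.rangeRestrict σ = 1 := Subtype.ext ((hf1 σ).mpr hσ)
      rw [this]
      exact one_mem M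
    have h4 := eq_top_of_inertia Nat.prime_three (isOpen_of_ker_le hlev hker)
      (fun ℓ hℓ hℓp B hB σ hσ => hker σ (hu σ (hun ℓ hℓ hℓp B hB σ hσ))) hA
      (Subgroup.map_le_iff_le_comap.mp hCM)
    rw [Subgroup.eq_top_iff']
    intro x
    obtain ⟨σ, hσ⟩ := f.rangeRestrict_surjective x
    rw [← hσ]
    have : σ ∈ M.comap f.rangeRestrict := by rw [h4]; trivial
    exact this
  have hall : ∀ σ, ∃ τ ∈ A.inertiaSubgroupIn ℚ, r σ = r τ := by
    intro σ
    have h5 : f.rangeRestrict σ ∈ (A.inertiaSubgroupIn ℚ).map f.rangeRestrict := by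
      rw [htop]; trivial
    obtain ⟨τ, hτ, h6⟩ := h5
    refine ⟨τ, hτ, ?_⟩
    have h7 : f τ = f σ := congrArg Subtype.val h6
    rw [← hf, ← hf, h7]
  rcases hloc with ⟨v, hv0, hv⟩ | ⟨v₁, v₂, ψ, hli, hψ, -⟩
  · apply hirr v hv0
    intro σ
    obtain ⟨τ, hτ, h8⟩ := hall σ
    rw [h8]
    exact (hv τ hτ).1
  · apply hirr v₁ (hli.ne_zero 0)
    intro σ
    obtain ⟨τ, hτ, h8⟩ := hall σ
    rw [h8]
    exact ⟨_, (hψ τ hτ).1⟩

/-- **No line over `k̄` is stable under a subgroup of index at most two.** -/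
theorem noLine [Finite k] [hp : Fact p.Prime] [CharP k p] (hp2 : p ≠ 2)
    (hcyc : CycDet p r) (hlev : IsFiniteLevel r) (hun : UnipAway p r) {A : ValuationSubring Om}
    (hA : A.LiesOverPrime p) (hloc : OrdAt A r ∨ SSAt p A r)
    (h48 : p = 3 → ∀ σ, r σ ^ 48 = 1)
    (habs : ∀ v : Fin 2 → AlgebraicClosure k, v ≠ 0 →
      ¬ ∀ σ, ∃ a : AlgebraicClosure k, ext (AlgebraicClosure k) r σ *ᵥ v = a • v) :
    NoLine r := by
  intro G hG v hv hstab
  rcases hG with hG | hG
  · rw [Subgroup.index_eq_one] at hG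
    exact habs v hv fun σ => hstab σ (by rw [hG]; exact Subgroup.mem_top σ)
  obtain ⟨w, hw⟩ := imprim_of (K := AlgebraicClosure k) (r := r) hG hv (habs v hv)
    (fun σ hσ => hstab σ hσ)
  rcases hloc with hord | hss
  · by_cases hp3 : p = 3
    · subst hp3
      have hirr : ∀ v : Fin 2 → k, v ≠ 0 → ¬ ∀ σ, ∃ a : k, r σ *ᵥ v = a • v := by
        intro v hv h
        apply habs (fun i => algebraMap k (AlgebraicClosure k) (v i))
        · intro h0
          apply hv
          funext i
          exact (map_eq_zero _).mp (congrFun h0 i)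
        · intro σ
          obtain ⟨a, ha⟩ := h σ
          refine ⟨algebraMap k _ a, ?_⟩
          funext i
          have h1 := congrArg (algebraMap k (AlgebraicClosure k)) (congrFun ha i)
          rw [ext_apply]
          simp only [Pi.smul_apply, smul_eq_mul, map_mul] at h1
          rw [Pi.smul_apply, smul_eq_mul, ← h1]
          simp only [Matrix.mulVec, dotProduct, Matrix.map_apply, map_sum, map_mul]
      obtain ⟨σ, h1, h2⟩ := exists_transvection (h48 rfl) hlev hun hA (Or.inl hord) hirr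
      exact h1 (hw.eq_one_of_unip (two_ne_zero_of hp.out hp2) hG h2)
    · have h5 : 5 ≤ p := by
        have := hp.out.two_le
        have h4 : p ≠ 4 := by rintro rfl; exact absurd hp.out (by norm_num)
        omega
      exact not_imprim_of_ord h5 hcyc hG hw hlev hun hA hord
  · exact not_imprim_of_ss hp2 hG hw hlev hun hA hss

end Fermat.Agent.GalW
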